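/-
Programme DS (S48, Deligne–Serre), brick B4 (group theory, Prop. 7.2), file 1 (helper95).
Mathlib only.  Element-level facts about the Möbius action of `GL(2, K)` on `OnePoint K`
(Mathlib's `OnePoint.instGLAction`) for elements of finite order prime to the characteristic:

* `exists_smul_eq_infty`      : `GL(2, K)` is transitive on `OnePoint K` (every point can be moved to `∞`);
* `eq_one_of_unipotent_upper` : an upper triangular unipotent matrix of finite order `n`, `(n : K) ≠ 0`, is `1`;
* `commute_of_common_fixed`   : two elements with a common fixed point whose commutator has such an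
                                order commute;
* `ncard_fixed_eq_two`        : (`K` algebraically closed) an element of order dividing `n`, `(n : K) ≠ 0`,
                                which does not act trivially has exactly two fixed points;
* `commute_of_forall_smul_eq` : an element acting trivially is central.
-/
import Mathlib

set_option autoImplicit false
set_option linter.unusedSectionVars false

open Matrix OnePoint
open scoped MatrixGroups

namespace Fermat.Agent.DS.Grp.Mobius

variable {K : Type*} [Field K] [DecidableEq K]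

/-- the matrix `[0 1; 1 -c]` moving `c` to `∞`. -/
noncomputable def toInfty (c : K) : GL (Fin 2) K :=
  Matrix.GeneralLinearGroup.mkOfDetNeZero !![0, 1; 1, -c] (by simp [Matrix.det_fin_two])

theorem toInfty_smul (c : K) : toInfty c • (c : OnePoint K) = ∞ := by
  rw [OnePoint.smul_some_eq_ite]
  simp [toInfty, Matrix.GeneralLinearGroup.mkOfDetNeZero]

/-- `GL(2, K)` is transitive on `OnePoint K`. -/
theorem exists_smul_eq_infty (x : OnePoint K) : ∃ p : GL (Fin 2) K, p • x = ∞ := by
  cases x with
  | infty => exact ⟨1, one_smul _ _⟩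
  | coe c => exact ⟨toInfty c, toInfty_smul c⟩

/-- the action of an upper triangular matrix on a finite point. -/
theorem upper_smul_coe {g : GL (Fin 2) K} (hg : g 1 0 = 0) (k : K) :
    g • (k : OnePoint K) = (((g 0 0 * k + g 0 1) / g 1 1 : K) : OnePoint K) := by
  have hd : g 1 1 ≠ 0 := by
    intro h
    have := g.det_ne_zero
    rw [Matrix.det_fin_two] at this
    apply this
    rw [hg, h]; ring
  rw [OnePoint.smul_some_eq_ite]
  simp [hg, hd]

omit [DecidableEq K] in
/-- powers of an upper triangular `2 × 2` matrix with equal diagonal entries. -/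
theorem pow_upper_eq_diag (M : Matrix (Fin 2) (Fin 2) K) (h10 : M 1 0 = 0) (hd : M 1 1 = M 0 0)
    (n : ℕ) :
    (M ^ n) 1 0 = 0 ∧ (M ^ n) 0 0 = (M 0 0) ^ n ∧ (M ^ n) 1 1 = (M 0 0) ^ n ∧
      (M ^ n) 0 1 * M 0 0 = n * (M 0 0) ^ n * M 0 1 := by
  induction n with
  | zero => simp
  | succ n ih =>
    obtain ⟨h1, h2, h3, h4⟩ := ih
    rw [pow_succ]
    refine ⟨?_, ?_, ?_, ?_⟩
    · simp [Matrix.mul_apply, Fin.sum_univ_two, h1, h10, h3]
    · simp [Matrix.mul_apply, Fin.sum_univ_two, h2, h10, pow_succ]
    · simp [Matrix.mul_apply, Fin.sum_univ_two, h1, h3, hd, pow_succ]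
    · simp only [Matrix.mul_apply, Fin.sum_univ_two, h2, hd]
      push_cast
      linear_combination (M 0 0) * h4

omit [DecidableEq K] in
/-- an upper triangular matrix with equal diagonal entries, of finite order `n` invertible in `K`, is
diagonal. -/
theorem upper_eq_zero_of_pow_eq_one (g : GL (Fin 2) K) (h10 : g 1 0 = 0) (hd : g 1 1 = g 0 0)
    {n : ℕ} (hn : (n : K) ≠ 0) (hgn : g ^ n = 1) : g 0 1 = 0 := by
  have ha : g 0 0 ≠ 0 := by
    intro h
    have := g.det_ne_zero
    rw [Matrix.det_fin_two] at this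
    apply this
    rw [h10, h]; ring
  obtain ⟨-, -, -, h4⟩ := pow_upper_eq_diag g.val h10 hd n
  have h1 : (g.val ^ n) 0 1 = 0 := by
    have : g.val ^ n = 1 := by
      rw [← Units.val_pow_eq_pow_val, hgn]; rfl
    rw [this]; simp
  rw [h1, zero_mul] at h4
  have := mul_eq_zero.mp h4.symm
  rcases this with h | h
  · rcases mul_eq_zero.mp h with h | h
    · exact absurd h hn
    · exact absurd (pow_eq_zero_iff (by intro h0; subst h0; simp at hn) |>.mp h) ha
  · exact h

omit [DecidableEq K] in
theorem diag_ne_zero {g : GL (Fin 2) K} (hg : g 1 0 = 0) : g 0 0 ≠ 0 ∧ g 1 1 ≠ 0 := by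
  have := g.det_ne_zero
  rw [Matrix.det_fin_two, hg] at this
  constructor <;> intro h <;> apply this <;> rw [h] <;> ring

omit [DecidableEq K] in
/-- an upper triangular element all of whose diagonal entries are `1` and of finite order invertible
in `K` is trivial. -/
theorem eq_one_of_unipotent_upper (k : GL (Fin 2) K) (h10 : k 1 0 = 0) (h00 : k 0 0 = 1)
    (h11 : k 1 1 = 1) {n : ℕ} (hn : (n : K) ≠ 0) (hkn : k ^ n = 1) : k = 1 := by
  have h01 := upper_eq_zero_of_pow_eq_one k h10 (by rw [h11, h00]) hn hkn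
  apply Units.ext
  ext i j
  fin_cases i <;> fin_cases j <;> simp [h10, h00, h11, h01]

theorem commute_of_fixed_infty (s t k : GL (Fin 2) K) (hs : s 1 0 = 0) (ht : t 1 0 = 0)
    (hk10 : k 1 0 = 0) (hk : k * (t * s) = s * t) {n : ℕ} (hn : (n : K) ≠ 0) (hkn : k ^ n = 1) :
    k = 1 := by
  obtain ⟨hs0, hs1⟩ := diag_ne_zero hs
  obtain ⟨ht0, ht1⟩ := diag_ne_zero ht
  have e00 := congrArg (fun m : GL (Fin 2) K => m 0 0) hk
  have e11 := congrArg (fun m : GL (Fin 2) K => m 1 1) hk
  simp only [Matrix.GeneralLinearGroup.coe_mul, Matrix.mul_apply, Fin.sum_univ_two, hs, ht, hk10,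
    mul_zero, add_zero, zero_mul, zero_add] at e00 e11
  have h00 : k 0 0 = 1 := by
    have : (k 0 0 - 1) * (t 0 0 * s 0 0) = 0 := by linear_combination e00
    rcases mul_eq_zero.mp this with h | h
    · exact sub_eq_zero.mp h
    · exact absurd h (mul_ne_zero ht0 hs0)
  have h11 : k 1 1 = 1 := by
    have : (k 1 1 - 1) * (t 1 1 * s 1 1) = 0 := by linear_combination e11
    rcases mul_eq_zero.mp this with h | h
    · exact sub_eq_zero.mp h
    · exact absurd h (mul_ne_zero ht1 hs1)
  exact eq_one_of_unipotent_upper k hk10 h00 h11 hn hkn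

/-- two elements with a common fixed point commute as soon as their commutator has finite order
invertible in `K`. -/
theorem commute_of_common_fixed (s t : GL (Fin 2) K) (x : OnePoint K) (hs : s • x = x)
    (ht : t • x = x) {n : ℕ} (hn : (n : K) ≠ 0) (hkn : (s * t * s⁻¹ * t⁻¹) ^ n = 1) :
    s * t = t * s := by
  obtain ⟨p, hp⟩ := exists_smul_eq_infty x
  have hpx : p⁻¹ • (∞ : OnePoint K) = x := by rw [← hp, inv_smul_smul]
  have hfix : ∀ g : GL (Fin 2) K, g • x = x → (p * g * p⁻¹) 1 0 = 0 := by
    intro g hg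
    rw [← OnePoint.smul_infty_eq_self_iff, mul_smul, mul_smul, hpx, hg, hp]
  have hsi : s⁻¹ • x = x := by rw [inv_smul_eq_iff, hs]
  have hti : t⁻¹ • x = x := by rw [inv_smul_eq_iff, ht]
  set k := s * t * s⁻¹ * t⁻¹ with hkdef
  have hkx : k • x = x := by
    rw [hkdef, mul_smul, mul_smul, mul_smul, hti, hsi, ht, hs]
  have hk1 : p * k * p⁻¹ = 1 := by
    apply commute_of_fixed_infty (p * s * p⁻¹) (p * t * p⁻¹) (p * k * p⁻¹) (hfix s hs) (hfix t ht)
      (hfix k hkx) ?_ hn ?_
    · rw [hkdef]; group
    · rw [conj_pow, hkn]; group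
  have hk : k = 1 := by
    have := congrArg (fun m => p⁻¹ * m * p) hk1
    simpa [mul_assoc] using this
  rw [hkdef] at hk
  calc s * t = (s * t * s⁻¹ * t⁻¹) * (t * s) := by group
    _ = t * s := by rw [hk, one_mul]


/-- the set of fixed points. -/
def fixedSet (g : GL (Fin 2) K) : Set (OnePoint K) := {x | g • x = x}

theorem fixedSet_conj (p g : GL (Fin 2) K) :
    fixedSet (p * g * p⁻¹) = (fun x => p • x) '' fixedSet g := by
  ext y
  simp only [fixedSet, Set.mem_ofPred_eq, Set.mem_image]
  constructor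
  · intro h
    refine ⟨p⁻¹ • y, ?_, smul_inv_smul _ _⟩
    rw [mul_smul, mul_smul] at h
    exact (smul_eq_iff_eq_inv_smul p).mp h
  · rintro ⟨x, hx, rfl⟩
    rw [mul_smul, mul_smul, inv_smul_smul, hx]

/-- every element has a fixed point over an algebraically closed field. -/
theorem exists_fixed [IsAlgClosed K] (g : GL (Fin 2) K) : ∃ x : OnePoint K, g • x = x := by
  by_cases hc : g 1 0 = 0
  · exact ⟨∞, OnePoint.smul_infty_eq_self_iff.mpr hc⟩
  · have hdeg : g.fixpointPolynomial.degree ≠ 0 := by
      have : g.fixpointPolynomial =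
          Polynomial.C (g 1 0) * Polynomial.X ^ 2 + Polynomial.C (g 1 1 - g 0 0) * Polynomial.X +
            Polynomial.C (-(g 0 1)) := by
        rw [Matrix.GeneralLinearGroup.fixpointPolynomial, Polynomial.C_neg, sub_eq_add_neg]
      rw [this, Polynomial.degree_quadratic hc]
      norm_num
    obtain ⟨c, hc'⟩ := IsAlgClosed.exists_root _ hdeg
    refine ⟨(c : OnePoint K), ?_⟩
    rw [← Matrix.GeneralLinearGroup.fixpointPolynomial_aeval_eq_zero_iff]
    simpa [Polynomial.IsRoot.def, Polynomial.aeval_def] using hc'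

/-- upper triangular case of the count. -/
theorem ncard_fixedSet_upper (g : GL (Fin 2) K) (h10 : g 1 0 = 0) {n : ℕ} (hn : (n : K) ≠ 0)
    (hgn : g ^ n = 1) (hnt : ∃ x : OnePoint K, g • x ≠ x) : (fixedSet g).ncard = 2 := by
  obtain ⟨ha, hd⟩ := diag_ne_zero h10
  by_cases hdiag : g 1 1 = g 0 0
  · exfalso
    have hb := upper_eq_zero_of_pow_eq_one g h10 hdiag hn hgn
    obtain ⟨x, hx⟩ := hnt
    apply hx
    cases x with
    | infty => exact OnePoint.smul_infty_eq_self_iff.mpr h10
    | coe k =>
      rw [upper_smul_coe h10, hb, hdiag, add_zero, mul_div_assoc, mul_comm, div_mul_cancel₀ _ ha]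
  · have hne : g 1 1 - g 0 0 ≠ 0 := sub_ne_zero.mpr hdiag
    have : fixedSet g = {∞, ((g 0 1 / (g 1 1 - g 0 0) : K) : OnePoint K)} := by
      ext x
      simp only [fixedSet, Set.mem_ofPred_eq, Set.mem_insert_iff, Set.mem_singleton_iff]
      cases x with
      | infty => simp [OnePoint.smul_infty_eq_self_iff.mpr h10]
      | coe k =>
        rw [upper_smul_coe h10]
        simp only [OnePoint.coe_eq_coe, OnePoint.coe_ne_infty, false_or]
        rw [div_eq_iff hd, eq_div_iff hne]
        constructor <;> intro h <;> linear_combination -h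
    rw [this, Set.ncard_pair (OnePoint.infty_ne_coe _)]

/-- **Two fixed points.** -/
theorem ncard_fixedSet_eq_two [IsAlgClosed K] (g : GL (Fin 2) K) {n : ℕ} (hn : (n : K) ≠ 0)
    (hgn : g ^ n = 1) (hnt : ∃ x : OnePoint K, g • x ≠ x) : (fixedSet g).ncard = 2 := by
  obtain ⟨x₀, hx₀⟩ := exists_fixed g
  obtain ⟨p, hp⟩ := exists_smul_eq_infty x₀
  have hpx : p⁻¹ • (∞ : OnePoint K) = x₀ := by rw [← hp, inv_smul_smul]
  have h10 : (p * g * p⁻¹) 1 0 = 0 := by
    rw [← OnePoint.smul_infty_eq_self_iff, mul_smul, mul_smul, hpx, hx₀, hp]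
  have hpow : (p * g * p⁻¹) ^ n = 1 := by rw [conj_pow, hgn]; group
  have hnt' : ∃ x : OnePoint K, (p * g * p⁻¹) • x ≠ x := by
    obtain ⟨x, hx⟩ := hnt
    refine ⟨p • x, fun h => hx ?_⟩
    rw [mul_smul, mul_smul, inv_smul_smul] at h
    exact (MulAction.injective p) h
  have h2 := ncard_fixedSet_upper _ h10 hn hpow hnt'
  rw [fixedSet_conj, Set.ncard_image_of_injective _ (MulAction.injective p)] at h2
  exact h2


/-- an element acting trivially on `OnePoint K` is central. -/
theorem commute_of_forall_smul_eq (g : GL (Fin 2) K) (h : ∀ x : OnePoint K, g • x = x)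
    (m : GL (Fin 2) K) : g * m = m * g := by
  have h10 : g 1 0 = 0 := OnePoint.smul_infty_eq_self_iff.mp (h ∞)
  obtain ⟨ha, hd⟩ := diag_ne_zero h10
  have h0 := h ((0 : K) : OnePoint K)
  rw [upper_smul_coe h10, OnePoint.coe_eq_coe, mul_zero, zero_add, div_eq_iff hd, zero_mul] at h0
  have h1 := h ((1 : K) : OnePoint K)
  rw [upper_smul_coe h10, OnePoint.coe_eq_coe, mul_one, h0, add_zero, div_eq_iff hd, one_mul] at h1
  apply Units.ext
  ext i j
  fin_cases i <;> fin_cases j <;>
    simp [Matrix.mul_apply, Fin.sum_univ_two, h10, h0, h1, mul_comm]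

end Fermat.Agent.DS.Grp.Mobius
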