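/-
Programme DS (S48, Deligne–Serre), brick B4 (group theory, Prop. 7.2), file 4 (helper95).
Mathlib + `Mobius`.

Commuting elements of `GL(2, K)`, `K` algebraically closed, of finite order invertible in `K`:

* `fixed_of_commute`, `exists_common_fixed` : they have a common fixed point on `OnePoint K`;
* `eq_or_mul_eq_scalar` : if moreover they have the same trace and determinant, then `b = a` or
  `a * b` is the scalar matrix `det a`;
* `card_fibre_le_two`, `card_le_two_mul_card_image` : a finite set of pairwise commuting such elements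
  has at most two elements with a given `(trace, det)`.
-/
import Mathlib
import Fermat.Agent.DS.Grp.Mobius

set_option autoImplicit false
set_option linter.unusedSectionVars false

open Matrix OnePoint MulAction
open scoped MatrixGroups

namespace Fermat.Agent.DS.Grp.AbelianFibre

open Fermat.Agent.DS.Grp.Mobius

variable {K : Type*} [Field K] [DecidableEq K]

/-- an upper triangular element with distinct diagonal entries: everything commuting with it is upper
triangular. -/
theorem upper_of_commute {a b : GL (Fin 2) K} (ha : a 1 0 = 0) (hne : a 0 0 ≠ a 1 1)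
    (hab : a * b = b * a) : b 1 0 = 0 := by
  have e := congrArg (fun m : GL (Fin 2) K => m 1 0) hab
  simp only [Matrix.GeneralLinearGroup.coe_mul, Matrix.mul_apply, Fin.sum_univ_two, ha, zero_mul,
    zero_add, mul_zero, add_zero] at e
  have : (a 1 1 - a 0 0) * b 1 0 = 0 := by linear_combination e
  rcases mul_eq_zero.mp this with h | h
  · exact absurd (sub_eq_zero.mp h).symm hne
  · exact h

/-- a fixed point of an element of finite order acting non-trivially is fixed by everything commuting
with it. -/
theorem fixed_of_commute {a b : GL (Fin 2) K} {x : OnePoint K} (hax : a • x = x)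
    (hnt : ∃ y : OnePoint K, a • y ≠ y) {n : ℕ} (hn : (n : K) ≠ 0) (han : a ^ n = 1)
    (hab : a * b = b * a) : b • x = x := by
  obtain ⟨p, hp⟩ := exists_smul_eq_infty x
  have hpx : p⁻¹ • (∞ : OnePoint K) = x := by rw [← hp, inv_smul_smul]
  have ha10 : (p * a * p⁻¹) 1 0 = 0 := by
    rw [← OnePoint.smul_infty_eq_self_iff, mul_smul, mul_smul, hpx, hax, hp]
  have hpow : (p * a * p⁻¹) ^ n = 1 := by rw [conj_pow, han]; group
  have hne : (p * a * p⁻¹) 0 0 ≠ (p * a * p⁻¹) 1 1 := by
    intro heq
    have h01 := upper_eq_zero_of_pow_eq_one _ ha10 heq.symm hn hpow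
    obtain ⟨y, hy⟩ := hnt
    apply hy
    have htriv : ∀ w : OnePoint K, (p * a * p⁻¹) • w = w := by
      intro w
      obtain ⟨h0, _⟩ := diag_ne_zero ha10
      cases w with
      | infty => exact OnePoint.smul_infty_eq_self_iff.mpr ha10
      | coe k =>
        rw [upper_smul_coe ha10, h01, ← heq, add_zero, mul_div_assoc, mul_comm,
          div_mul_cancel₀ _ h0]
    have := htriv (p • y)
    rw [mul_smul, mul_smul, inv_smul_smul] at this
    exact (MulAction.injective p) this
  have hcomm : (p * a * p⁻¹) * (p * b * p⁻¹) = (p * b * p⁻¹) * (p * a * p⁻¹) := by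
    calc (p * a * p⁻¹) * (p * b * p⁻¹) = p * (a * b) * p⁻¹ := by group
      _ = p * (b * a) * p⁻¹ := by rw [hab]
      _ = (p * b * p⁻¹) * (p * a * p⁻¹) := by group
  have hb10 := upper_of_commute ha10 hne hcomm
  rw [← OnePoint.smul_infty_eq_self_iff, mul_smul, mul_smul, hpx] at hb10
  have := congrArg (fun w => p⁻¹ • w) hb10
  simpa [hpx] using this

/-- upper triangular case of the dichotomy. -/
theorem eq_or_mul_eq_scalar_upper {a b : GL (Fin 2) K} (ha : a 1 0 = 0) (hb : b 1 0 = 0)
    {n : ℕ} (hn : (n : K) ≠ 0) (han : a ^ n = 1) (hbn : b ^ n = 1) (hab : a * b = b * a)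
    (htr : a.val.trace = b.val.trace) (hdet : a.val.det = b.val.det) :
    b = a ∨ (a * b).val = a.val.det • (1 : Matrix (Fin 2) (Fin 2) K) := by
  obtain ⟨ha0, ha1⟩ := diag_ne_zero ha
  obtain ⟨hb0, hb1⟩ := diag_ne_zero hb
  rw [Matrix.trace_fin_two, Matrix.trace_fin_two] at htr
  rw [Matrix.det_fin_two, Matrix.det_fin_two] at hdet
  have ha' : (a : Matrix (Fin 2) (Fin 2) K) 1 0 = 0 := ha
  have hb' : (b : Matrix (Fin 2) (Fin 2) K) 1 0 = 0 := hb
  rw [ha', hb', mul_zero, mul_zero, sub_zero, sub_zero] at hdet
  have hprod : (b 0 0 - a 0 0) * (b 0 0 - a 1 1) = 0 := by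
    linear_combination (-(b 0 0)) * htr + hdet
  rcases mul_eq_zero.mp hprod with h | h
  · -- same diagonal
    left
    have h00 : b 0 0 = a 0 0 := sub_eq_zero.mp h
    have h11 : b 1 1 = a 1 1 := by
      have : (a : Matrix (Fin 2) (Fin 2) K) 0 0 + a 1 1 = b 0 0 + b 1 1 := htr
      rw [h00] at this
      exact (add_left_cancel this).symm
    set k := b * a⁻¹ with hk
    have hka : k * a = b := by rw [hk]; group
    have hk10 : k 1 0 = 0 := by
      have hai : a⁻¹ • (∞ : OnePoint K) = ∞ := by
        rw [inv_smul_eq_iff, OnePoint.smul_infty_eq_self_iff.mpr ha]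
      rw [← OnePoint.smul_infty_eq_self_iff, hk, mul_smul, hai,
        OnePoint.smul_infty_eq_self_iff.mpr hb]
    have e00 := congrArg (fun m : GL (Fin 2) K => m 0 0) hka
    have e11 := congrArg (fun m : GL (Fin 2) K => m 1 1) hka
    simp only [Matrix.GeneralLinearGroup.coe_mul, Matrix.mul_apply, Fin.sum_univ_two, ha, hk10,
      mul_zero, add_zero, zero_mul, zero_add] at e00 e11
    have hk00 : k 0 0 = 1 := by
      have : (k 0 0 - 1) * a 0 0 = 0 := by rw [h00] at e00; linear_combination e00
      rcases mul_eq_zero.mp this with h' | h'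
      · exact sub_eq_zero.mp h'
      · exact absurd h' ha0
    have hk11 : k 1 1 = 1 := by
      have : (k 1 1 - 1) * a 1 1 = 0 := by rw [h11] at e11; linear_combination e11
      rcases mul_eq_zero.mp this with h' | h'
      · exact sub_eq_zero.mp h'
      · exact absurd h' ha1
    have hcomm : Commute b a⁻¹ := (Commute.inv_right (show Commute b a from hab.symm))
    have hkn : k ^ n = 1 := by
      rw [hk, hcomm.mul_pow, hbn, inv_pow, han, inv_one, one_mul]
    have hk1 := eq_one_of_unipotent_upper k hk10 hk00 hk11 hn hkn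
    rw [← hka, hk1, one_mul]
  · -- swapped diagonal
    right
    have h00 : b 0 0 = a 1 1 := sub_eq_zero.mp h
    have h11 : b 1 1 = a 0 0 := by
      have : (a : Matrix (Fin 2) (Fin 2) K) 0 0 + a 1 1 = b 0 0 + b 1 1 := htr
      rw [h00] at this
      linear_combination -this
    set c := a * b with hc
    have hc10 : c 1 0 = 0 := by
      simp [hc, Matrix.mul_apply, Fin.sum_univ_two, ha, hb]
    have hc00 : c 0 0 = a 0 0 * a 1 1 := by
      simp [hc, Matrix.mul_apply, Fin.sum_univ_two, hb, h00]
    have hc11 : c 1 1 = a 0 0 * a 1 1 := by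
      simp [hc, Matrix.mul_apply, Fin.sum_univ_two, ha, h11, mul_comm]
    have hcn : c ^ n = 1 := by
      rw [hc, (show Commute a b from hab).mul_pow, han, hbn, one_mul]
    have hc01 := upper_eq_zero_of_pow_eq_one c hc10 (by rw [hc11, hc00]) hn hcn
    rw [Matrix.det_fin_two, ha', mul_zero, sub_zero]
    ext i j
    fin_cases i <;> fin_cases j <;> simp [hc10, hc00, hc11, hc01]

/-- two commuting elements of finite order have a common fixed point. -/
theorem exists_common_fixed [IsAlgClosed K] {a b : GL (Fin 2) K} {n : ℕ} (hn : (n : K) ≠ 0)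
    (han : a ^ n = 1) (hab : a * b = b * a) : ∃ x : OnePoint K, a • x = x ∧ b • x = x := by
  by_cases htriv : ∀ y : OnePoint K, a • y = y
  · obtain ⟨x, hx⟩ := exists_fixed b
    exact ⟨x, htriv x, hx⟩
  · obtain ⟨x, hx⟩ := exists_fixed a
    refine ⟨x, hx, fixed_of_commute hx ?_ hn han hab⟩
    by_contra h
    apply htriv
    intro y
    by_contra hy
    exact h ⟨y, hy⟩

/-- **The dichotomy**: two commuting elements of finite order invertible in `K` with the same trace and
determinant are equal, or their product is the scalar `det`. -/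
theorem eq_or_mul_eq_scalar [IsAlgClosed K] {a b : GL (Fin 2) K} {n : ℕ} (hn : (n : K) ≠ 0)
    (han : a ^ n = 1) (hbn : b ^ n = 1) (hab : a * b = b * a)
    (htr : a.val.trace = b.val.trace) (hdet : a.val.det = b.val.det) :
    b = a ∨ (a * b).val = a.val.det • (1 : Matrix (Fin 2) (Fin 2) K) := by
  obtain ⟨x, hax, hbx⟩ := exists_common_fixed hn han hab
  obtain ⟨p, hp⟩ := exists_smul_eq_infty x
  have hpx : p⁻¹ • (∞ : OnePoint K) = x := by rw [← hp, inv_smul_smul]
  have hfix : ∀ g : GL (Fin 2) K, g • x = x → (p * g * p⁻¹) 1 0 = 0 := by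
    intro g hg
    rw [← OnePoint.smul_infty_eq_self_iff, mul_smul, mul_smul, hpx, hg, hp]
  have hval : ∀ g : GL (Fin 2) K, (p * g * p⁻¹).val = p.val * g.val * (p⁻¹).val := fun g => rfl
  have htrc : ∀ g : GL (Fin 2) K, (p * g * p⁻¹).val.trace = g.val.trace := by
    intro g
    rw [hval]
    exact Matrix.trace_units_conj p g.val
  have hdetc : ∀ g : GL (Fin 2) K, (p * g * p⁻¹).val.det = g.val.det := by
    intro g
    rw [hval]
    exact Matrix.det_units_conj p g.val
  have hcomm : (p * a * p⁻¹) * (p * b * p⁻¹) = (p * b * p⁻¹) * (p * a * p⁻¹) := by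
    calc (p * a * p⁻¹) * (p * b * p⁻¹) = p * (a * b) * p⁻¹ := by group
      _ = p * (b * a) * p⁻¹ := by rw [hab]
      _ = (p * b * p⁻¹) * (p * a * p⁻¹) := by group
  have key := eq_or_mul_eq_scalar_upper (hfix a hax) (hfix b hbx) hn
    (by rw [conj_pow, han]; group) (by rw [conj_pow, hbn]; group) hcomm
    (by rw [htrc, htrc, htr]) (by rw [hdetc, hdetc, hdet])
  rcases key with h | h
  · left
    have := congrArg (fun m => p⁻¹ * m * p) h
    simpa [mul_assoc] using this
  · right
    rw [hdetc] at h
    have hprod : (p * a * p⁻¹) * (p * b * p⁻¹) = p * (a * b) * p⁻¹ := by group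
    rw [hprod, hval] at h
    have h2 : (a * b).val = (p⁻¹).val * (p.val * (a * b).val * (p⁻¹).val) * p.val := by
      have h3 : (p⁻¹).val * p.val = 1 := by
        rw [← Units.val_mul, inv_mul_cancel]; rfl
      calc (a * b).val = ((p⁻¹).val * p.val) * (a * b).val * ((p⁻¹).val * p.val) := by
            rw [h3, one_mul, mul_one]
        _ = _ := by simp only [mul_assoc]
    rw [h2, h, Matrix.mul_smul, Matrix.smul_mul, Matrix.mul_one]
    rw [← Units.val_mul, inv_mul_cancel]; rfl

/-- trace and determinant, as a pair. -/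
def trDet (g : GL (Fin 2) K) : K × K := (g.val.trace, g.val.det)

/-- in a finite set of pairwise commuting elements of finite order invertible in `K`, at most two
elements have a given trace and determinant. -/
theorem card_fibre_le_two [IsAlgClosed K] (A : Finset (GL (Fin 2) K)) {n : ℕ} (hn : (n : K) ≠ 0)
    (hpow : ∀ a ∈ A, a ^ n = 1) (hcomm : ∀ a ∈ A, ∀ b ∈ A, a * b = b * a) (td : K × K) :
    (A.filter (fun a => trDet a = td)).card ≤ 2 := by
  classical
  set F := A.filter (fun a => trDet a = td) with hF
  rcases F.eq_empty_or_nonempty with h0 | ⟨a, haF⟩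
  · rw [h0]; simp
  have haA : a ∈ A := (Finset.mem_filter.mp haF).1
  have hatd : trDet a = td := (Finset.mem_filter.mp haF).2
  have hone : (F.erase a).card ≤ 1 := by
    rw [Finset.card_le_one]
    intro b hb c hc
    obtain ⟨hba, hbF⟩ := Finset.mem_erase.mp hb
    obtain ⟨hca, hcF⟩ := Finset.mem_erase.mp hc
    have hbA : b ∈ A := (Finset.mem_filter.mp hbF).1
    have hcA : c ∈ A := (Finset.mem_filter.mp hcF).1
    have hbtd : trDet b = td := (Finset.mem_filter.mp hbF).2
    have hctd : trDet c = td := (Finset.mem_filter.mp hcF).2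
    have hb' := eq_or_mul_eq_scalar hn (hpow a haA) (hpow b hbA) (hcomm a haA b hbA)
      (by have := hatd.trans hbtd.symm; exact congrArg Prod.fst this)
      (by have := hatd.trans hbtd.symm; exact congrArg Prod.snd this)
    have hc' := eq_or_mul_eq_scalar hn (hpow a haA) (hpow c hcA) (hcomm a haA c hcA)
      (by have := hatd.trans hctd.symm; exact congrArg Prod.fst this)
      (by have := hatd.trans hctd.symm; exact congrArg Prod.snd this)
    rcases hb' with h | h
    · exact absurd h hba
    rcases hc' with h' | h'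
    · exact absurd h' hca
    have : a * b = a * c := Units.ext (h.trans h'.symm)
    exact mul_left_cancel this
  have := Finset.card_erase_of_mem haF
  omega

/-- hence a finite set of pairwise commuting elements of finite order has at most twice as many elements
as values of `(trace, det)`. -/
theorem card_le_two_mul_card_image [IsAlgClosed K] (A : Finset (GL (Fin 2) K)) {n : ℕ}
    (hn : (n : K) ≠ 0) (hpow : ∀ a ∈ A, a ^ n = 1) (hcomm : ∀ a ∈ A, ∀ b ∈ A, a * b = b * a) :
    A.card ≤ 2 * (A.image trDet).card := by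
  classical
  exact Finset.card_le_mul_card_image A 2 (fun td _ => card_fibre_le_two A hn hpow hcomm td)

end Fermat.Agent.DS.Grp.AbelianFibre
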