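/-
Programme DS (S48, Deligne–Serre), brick B4 (group theory, Prop. 7.2), file 2 (helper95).
Mathlib only.  The Diophantine analysis of Klein's orbit-counting formula
`2 - 2/n = ∑ (1 - 1/e_i)`: some stabiliser has index `≤ 2` or `n ≤ 60`.
-/
import Mathlib
set_option autoImplicit false
namespace Fermat.Agent.DS.Grp.KleinArith

theorem aux2 (n a b c ea eb ec : ℕ) (h60 : 60 < n) (ha : a * ea = n) (hb : b * eb = n)
    (hc : c * ec = n) (hea : ea = 2) (heb2 : 2 ≤ eb) (heb : eb ≤ 3) (hc3 : 3 ≤ c)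
    (hsum : a + b + c = n + 2) : False := by
  subst hea
  interval_cases eb
  · omega
  · rcases Nat.lt_or_ge ec 6 with h | h
    · have h5 : c * ec ≤ c * 5 := Nat.mul_le_mul_left c (by omega)
      omega
    · have h6 : c * 6 ≤ c * ec := Nat.mul_le_mul_left c h
      omega

theorem aux1 (n a b c ea eb ec : ℕ) (h60 : 60 < n) (ha : a * ea = n) (hb : b * eb = n)
    (hc : c * ec = n) (hea : ea = 2) (heb : 2 ≤ eb) (hec : 2 ≤ ec) (hb3 : 3 ≤ b) (hc3 : 3 ≤ c)
    (hsum : a + b + c = n + 2) : False := by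
  rcases Nat.lt_or_ge eb 4 with h | h
  · exact aux2 n a b c ea eb ec h60 ha hb hc hea heb (by omega) hc3 hsum
  · rcases Nat.lt_or_ge ec 4 with h' | h'
    · exact aux2 n a c b ea ec eb h60 ha hc hb hea hec (by omega) hb3 (by omega)
    · subst hea
      have h1 : b * 4 ≤ b * eb := Nat.mul_le_mul_left b h
      have h2 : c * 4 ≤ c * ec := Nat.mul_le_mul_left c h'
      omega

theorem three (n a b c ea eb ec : ℕ) (h60 : 60 < n) (ha : a * ea = n) (hb : b * eb = n)
    (hc : c * ec = n) (hea : 2 ≤ ea) (heb : 2 ≤ eb) (hec : 2 ≤ ec) (ha3 : 3 ≤ a) (hb3 : 3 ≤ b)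
    (hc3 : 3 ≤ c) (hsum : a + b + c = n + 2) : False := by
  rcases Nat.lt_or_ge ea 3 with h | h
  · exact aux1 n a b c ea eb ec h60 ha hb hc (by omega) heb hec hb3 hc3 hsum
  rcases Nat.lt_or_ge eb 3 with h' | h'
  · exact aux1 n b a c eb ea ec h60 hb ha hc (by omega) hea hec ha3 hc3 (by omega)
  rcases Nat.lt_or_ge ec 3 with h'' | h''
  · exact aux1 n c a b ec ea eb h60 hc ha hb (by omega) hea heb ha3 hb3 (by omega)
  have h1 : a * 3 ≤ a * ea := Nat.mul_le_mul_left a h
  have h2 : b * 3 ≤ b * eb := Nat.mul_le_mul_left b h'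
  have h3 : c * 3 ≤ c * ec := Nat.mul_le_mul_left c h''
  omega

/-- **The Diophantine analysis of Klein's orbit-counting formula**: if `∑ (n - m ω) = 2 n - 2` over
the non-free orbits (`m ω` = orbit size, `e ω ≥ 2` = stabiliser order, `m ω * e ω = n`), then some
orbit has at most two elements or `n ≤ 60`. -/
theorem klein_arith {Ω : Type*} [Fintype Ω] (n : ℕ) (m e : Ω → ℕ)
    (hme : ∀ ω, m ω * e ω = n) (he : ∀ ω, 2 ≤ e ω)
    (hsum : ∑ ω, m ω + 2 * n = Fintype.card Ω * n + 2) : (∃ ω, m ω ≤ 2) ∨ n ≤ 60 := by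
  classical
  by_contra hcon
  obtain ⟨h3', h60'⟩ := not_or.mp hcon
  have h60 : 60 < n := not_le.mp h60'
  have h3 : ∀ ω, 3 ≤ m ω := fun ω => by
    by_contra h
    exact h3' ⟨ω, by omega⟩
  have h2m : ∀ ω, 2 * m ω ≤ n := fun ω => by
    have := Nat.mul_le_mul_left (m ω) (he ω)
    rw [hme ω] at this
    omega
  set r := Fintype.card Ω with hr
  set T := ∑ ω, m ω with hT
  have hup : 2 * T ≤ r * n := by
    rw [hT, Finset.mul_sum]
    calc ∑ ω, 2 * m ω ≤ ∑ _ω : Ω, n := Finset.sum_le_sum (fun ω _ => h2m ω)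
      _ = r * n := by simp [hr]
  have hlo : 3 * r ≤ T := by
    calc 3 * r = ∑ _ω : Ω, 3 := by simp [hr, mul_comm]
      _ ≤ T := Finset.sum_le_sum (fun ω _ => h3 ω)
  have hr4 : r < 4 := by
    by_contra h
    have : 4 * n ≤ r * n := Nat.mul_le_mul_right n (not_lt.mp h)
    omega
  have hr3 : r = 3 := by
    interval_cases r <;> omega
  rw [hr3] at hsum
  have hcard : (Finset.univ : Finset Ω).card = 3 := by rw [Finset.card_univ, ← hr, hr3]
  obtain ⟨x, y, z, hxy, hxz, hyz, huniv⟩ := Finset.card_eq_three.mp hcard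
  have hTsum : T = m x + m y + m z := by
    rw [hT, huniv, Finset.sum_insert (by simp [hxy, hxz]), Finset.sum_insert (by simp [hyz]),
      Finset.sum_singleton]
    ring
  exact three n (m x) (m y) (m z) (e x) (e y) (e z) h60 (hme x) (hme y) (hme z) (he x) (he y) (he z)
    (h3 x) (h3 y) (h3 z) (by omega)

end Fermat.Agent.DS.Grp.KleinArith
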