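/-
Programme DS (S48, Deligne–Serre), brick B4 (group theory, Prop. 7.2), file 3 (helper95).
Mathlib + `Mobius`, `KleinArith`.

**Klein's theorem, weak form** (`exists_abelian_index_le`): a finite subgroup `G` of `GL(2, K)`, `K`
algebraically closed, whose order is invertible in `K`, has an abelian subgroup of index `≤ 60`
(a point stabiliser of index `≤ 2` for the Möbius action on `OnePoint K`, or the subgroup of the
elements acting trivially, of index `≤ 60`).

Proof: Burnside's lemma on the finite `G`-set of the points with non-trivial stabiliser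
(`special G`); every element acting non-trivially has exactly two fixed points
(`Mobius.ncard_fixedSet_eq_two`); the resulting formula `∑ (n - m_ω) = 2 n - 2` is analysed in
`KleinArith.klein_arith`; point stabilisers are abelian (`Mobius.commute_of_common_fixed`).
-/
import Mathlib
import Fermat.Agent.DS.Grp.Mobius
import Fermat.Agent.DS.Grp.KleinArith
set_option autoImplicit false
set_option linter.unusedSectionVars false

open Matrix OnePoint MulAction
open scoped MatrixGroups

namespace Fermat.Agent.DS.Grp.Klein

variable {K : Type*} [Field K] [DecidableEq K]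
variable (G : Subgroup (GL (Fin 2) K))

/-- the subgroup of the elements of `G` acting trivially on `OnePoint K`. -/
def triv : Subgroup G := (MulAction.toPermHom G (OnePoint K)).ker

theorem mem_triv {g : G} : g ∈ triv G ↔ ∀ x : OnePoint K, g • x = x := by
  rw [triv, MonoidHom.mem_ker]
  constructor
  · intro h x
    have := congrArg (fun σ : Equiv.Perm (OnePoint K) => σ x) h
    simpa using this
  · intro h
    ext x
    simpa using h x

instance : (triv G).Normal := by
  unfold triv; infer_instance

theorem triv_le_stabilizer (x : OnePoint K) : triv G ≤ stabilizer G x :=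
  fun _ hg => (mem_triv G).mp hg x

theorem triv_comm {z : G} (hz : z ∈ triv G) (g : G) : z * g = g * z := by
  apply Subtype.ext
  exact Mobius.commute_of_forall_smul_eq z.1 (fun x => (mem_triv G).mp hz x) g.1

section Finite

variable [Finite G]

theorem coe_pow_card (g : G) : (g : GL (Fin 2) K) ^ Nat.card G = 1 := by
  have h : g ^ Nat.card G = 1 := pow_card_eq_one'
  have := congrArg (Subtype.val : G → GL (Fin 2) K) h
  rwa [Subgroup.coe_pow, Subgroup.coe_one] at this

theorem stabilizer_comm (hG : (Nat.card G : K) ≠ 0) (x : OnePoint K) {s t : G}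
    (hs : s ∈ stabilizer G x) (ht : t ∈ stabilizer G x) : s * t = t * s := by
  apply Subtype.ext
  have := coe_pow_card G (s * t * s⁻¹ * t⁻¹)
  exact Mobius.commute_of_common_fixed s.1 t.1 x hs ht hG (by simpa using this)

variable [IsAlgClosed K]

theorem ncard_fixedBy (hG : (Nat.card G : K) ≠ 0) {g : G} (hg : g ∉ triv G) :
    (fixedBy (OnePoint K) g).ncard = 2 := by
  have hnt : ∃ x : OnePoint K, (g : GL (Fin 2) K) • x ≠ x := by
    by_contra h
    apply hg
    rw [mem_triv]
    intro x
    by_contra hx
    exact h ⟨x, hx⟩
  exact Mobius.ncard_fixedSet_eq_two g.1 hG (coe_pow_card G g) hnt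

/-- the points with a stabiliser bigger than `triv G`. -/
def special : SubMulAction G (OnePoint K) where
  carrier := {x | ∃ g : G, g ∉ triv G ∧ g • x = x}
  smul_mem' := by
    rintro h x ⟨g, hg, hgx⟩
    refine ⟨h * g * h⁻¹, ?_, ?_⟩
    · intro hmem
      apply hg
      have := (inferInstance : (triv G).Normal).conj_mem _ hmem h⁻¹
      simpa [mul_assoc] using this
    · rw [mul_smul, mul_smul, inv_smul_smul, hgx]

theorem mem_special {x : OnePoint K} : x ∈ special G ↔ ∃ g : G, g ∉ triv G ∧ g • x = x := Iff.rfl

theorem finite_special (hG : (Nat.card G : K) ≠ 0) : (special G : Set (OnePoint K)).Finite := by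
  have hsub : (special G : Set (OnePoint K)) ⊆
      ⋃ g : {g : G // g ∉ triv G}, fixedBy (OnePoint K) g.1 := by
    rintro x ⟨g, hg, hgx⟩
    exact Set.mem_iUnion.mpr ⟨⟨g, hg⟩, hgx⟩
  refine Set.Finite.subset (Set.finite_iUnion fun g => ?_) hsub
  exact Set.finite_of_ncard_ne_zero (by rw [ncard_fixedBy G hG g.2]; norm_num)

theorem card_coe_eq_ncard {α : Type*} (s : Set α) [Fintype s] : Fintype.card s = s.ncard := by
  rw [← Nat.card_eq_fintype_card, Nat.card_coe_set_eq]

theorem ncard_fixedBy_special_of_mem {g : G} (hg : g ∈ triv G) :
    (fixedBy (special G) g) = Set.univ := by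
  apply Set.eq_univ_of_forall
  intro x
  rw [MulAction.mem_fixedBy]
  apply Subtype.ext
  rw [SubMulAction.val_smul]
  exact (mem_triv G).mp hg x.1

theorem ncard_fixedBy_special_of_not_mem (hG : (Nat.card G : K) ≠ 0) {g : G} (hg : g ∉ triv G) :
    (fixedBy (special G) g).ncard = 2 := by
  have h2 := ncard_fixedBy G hG hg
  have : (Subtype.val : special G → OnePoint K) '' fixedBy (special G) g =
      fixedBy (OnePoint K) g := by
    ext y
    constructor
    · rintro ⟨x, hx, rfl⟩
      rw [MulAction.mem_fixedBy] at hx ⊢
      rw [← SubMulAction.val_smul, hx]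
    · intro hy
      rw [MulAction.mem_fixedBy] at hy
      refine ⟨⟨y, ⟨g, hg, hy⟩⟩, ?_, rfl⟩
      rw [MulAction.mem_fixedBy]
      apply Subtype.ext
      rw [SubMulAction.val_smul]
      exact hy
  rw [← this, Set.ncard_image_of_injective _ Subtype.val_injective] at h2
  exact h2


/-- Burnside's count on the special points: `z * |S| + 2 * N = r * N + 2 * z`. -/
theorem burnside_special (hG : (Nat.card G : K) ≠ 0) [Fintype (special G)]
    [Fintype (Quotient (orbitRel G (special G)))] :
    Nat.card (triv G) * Fintype.card (special G) + 2 * Nat.card G =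
      Fintype.card (Quotient (orbitRel G (special G))) * Nat.card G + 2 * Nat.card (triv G) := by
  classical
  have : Fintype G := Fintype.ofFinite G
  have hB := MulAction.sum_card_fixedBy_eq_card_orbits_mul_card_group G (special G)
  have hfix : ∀ g : G, Fintype.card (fixedBy (special G) g) =
      if g ∈ triv G then Fintype.card (special G) else 2 := by
    intro g
    split_ifs with hg
    · rw [card_coe_eq_ncard, ncard_fixedBy_special_of_mem G hg, Set.ncard_univ,
        Nat.card_eq_fintype_card]
    · rw [card_coe_eq_ncard, ncard_fixedBy_special_of_not_mem G hG hg]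
  simp_rw [hfix] at hB
  rw [Finset.sum_ite, Finset.sum_const, Finset.sum_const, smul_eq_mul, smul_eq_mul] at hB
  have hz : (Finset.univ.filter (fun g : G => g ∈ triv G)).card = Nat.card (triv G) := by
    rw [Nat.card_eq_fintype_card, Fintype.card_subtype]
  have hsplit := Finset.card_filter_add_card_filter_not (s := (Finset.univ : Finset G))
    (fun g : G => g ∈ triv G)
  rw [Finset.card_univ, ← Nat.card_eq_fintype_card] at hsplit
  rw [hz] at hB hsplit
  rw [← Nat.card_eq_fintype_card (α := G)] at hB
  have hle : Nat.card (triv G) ≤ Nat.card G := by omega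
  set a := (Finset.univ.filter (fun g : G => ¬ g ∈ triv G)).card with ha
  have : a = Nat.card G - Nat.card (triv G) := by omega
  rw [this] at hB
  have h2 : (Nat.card G - Nat.card (triv G)) * 2 + 2 * Nat.card (triv G) = 2 * Nat.card G := by
    omega
  omega


/-- the stabiliser of a special point is strictly bigger than `triv G`. -/
theorem two_mul_card_triv_le (x : special G) :
    ∃ e : ℕ, 2 ≤ e ∧ Nat.card (stabilizer G (x : OnePoint K)) = Nat.card (triv G) * e := by
  obtain ⟨g, hg, hgx⟩ := x.2
  have hle := triv_le_stabilizer G (x : OnePoint K)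
  obtain ⟨e, he⟩ := Subgroup.card_dvd_of_le hle
  refine ⟨e, ?_, he⟩
  have hpos : 0 < Nat.card (stabilizer G (x : OnePoint K)) := Nat.card_pos
  have hzpos : 0 < Nat.card (triv G) := Nat.card_pos
  rcases Nat.lt_or_ge e 2 with h | h
  · exfalso
    have he1 : e = 1 := by
      rcases Nat.eq_zero_or_pos e with h0 | h0
      · rw [h0, mul_zero] at he; omega
      · omega
    rw [he1, mul_one] at he
    have heq := Subgroup.eq_of_le_of_card_ge hle (le_of_eq he)
    apply hg
    rw [heq]
    exact hgx
  · exact h

/-- **Klein's theorem, weak form**: a finite subgroup of `GL(2, K)`, `K` algebraically closed, of order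
invertible in `K`, has an abelian subgroup of index at most `60`. -/
theorem exists_abelian_index_le (hG : (Nat.card G : K) ≠ 0) :
    ∃ A : Subgroup G, (∀ a ∈ A, ∀ b ∈ A, a * b = b * a) ∧ A.index ≤ 60 ∧ A.index ≠ 0 := by
  classical
  have : Fintype G := Fintype.ofFinite G
  have : Finite (special G) := (finite_special G hG).to_subtype
  have : Fintype (special G) := Fintype.ofFinite _
  have : Fintype (Quotient (orbitRel G (special G))) := Fintype.ofFinite _
  have hB := burnside_special G hG
  have hC := MulAction.card_eq_sum_card_group_div_card_stabilizer' G (special G)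
    (φ := Quotient.out) (fun ω => Quotient.out_eq' ω)
  set z := Nat.card (triv G) with hz
  set N := Nat.card G with hN
  have hzpos : 0 < z := Nat.card_pos
  have hNpos : 0 < N := Nat.card_pos
  set n := (triv G).index with hn
  have hzn : z * n = N := Subgroup.card_mul_index (triv G)
  -- data per orbit
  let St : Quotient (orbitRel G (special G)) → Subgroup G := fun ω => stabilizer G ((Quotient.out ω : special G) : OnePoint K)
  have hStab : ∀ ω : Quotient (orbitRel G (special G)), stabilizer G (Quotient.out ω : special G) = St ω := fun ω =>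
    SubMulAction.stabilizer_of_subMul _
  let m : Quotient (orbitRel G (special G)) → ℕ := fun ω => (St ω).index
  have hSm : ∀ ω, Nat.card (St ω) * m ω = N := fun ω => Subgroup.card_mul_index (St ω)
  have hex : ∀ ω, ∃ e : ℕ, 2 ≤ e ∧ Nat.card (St ω) = z * e := fun ω =>
    two_mul_card_triv_le G (Quotient.out ω)
  choose e he2 hSe using hex
  have hme : ∀ ω, m ω * e ω = n := by
    intro ω
    have h1 := hSm ω
    rw [hSe ω, ← hzn, mul_assoc] at h1
    have := Nat.eq_of_mul_eq_mul_left hzpos h1
    rw [mul_comm]; exact this
  have hdiv : ∀ ω, Fintype.card G / Fintype.card (stabilizer G (Quotient.out ω : special G)) =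
      m ω := by
    intro ω
    rw [← Nat.card_eq_fintype_card, ← Nat.card_eq_fintype_card, hStab ω, ← hN, ← hSm ω]
    exact Nat.mul_div_cancel_left _ Nat.card_pos
  simp_rw [hdiv] at hC
  rw [hC] at hB
  have hsum : ∑ ω, m ω + 2 * n = Fintype.card (Quotient (orbitRel G (special G))) * n + 2 := by
    have h1 : z * (∑ ω, m ω + 2 * n) = z * (Fintype.card (Quotient (orbitRel G (special G))) * n + 2) := by
      have : z * (∑ ω, m ω) + 2 * (z * n) = Fintype.card (Quotient (orbitRel G (special G))) * (z * n) + 2 * z := by
        rw [hzn]; exact hB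
      rw [mul_add, mul_add]
      rw [show z * (2 * n) = 2 * (z * n) by ring,
        show z * (Fintype.card (Quotient (orbitRel G (special G))) * n) = Fintype.card (Quotient (orbitRel G (special G))) * (z * n) by ring,
        show z * 2 = 2 * z by ring]
      exact this
    exact Nat.eq_of_mul_eq_mul_left hzpos h1
  rcases KleinArith.klein_arith n m e hme he2 hsum with ⟨ω, hω⟩ | h60
  · refine ⟨St ω, ?_, ?_, ?_⟩
    · intro a ha b hb
      exact stabilizer_comm G hG _ ha hb
    · exact le_trans hω (by norm_num)
    · intro h0
      have := hSm ω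
      simp only [m] at this
      rw [h0, mul_zero] at this
      omega
  · refine ⟨triv G, ?_, h60, ?_⟩
    · intro a ha b _
      exact triv_comm G ha b
    · intro h0
      have hn0 : n = 0 := h0
      rw [hn0, mul_zero] at hzn
      omega

end Finite
end Fermat.Agent.DS.Grp.Klein
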