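/-
Programme DS (S48, Deligne–Serre), brick B4 (group theory, Prop. 7.2), file 5 (helper95).
Mathlib + `Klein`, `AbelianFibre`.

**Deligne–Serre Prop. 7.2 in the case where the characteristic does not divide `|G|`**:
for a finite subgroup `G` of `GL(2, F)` with `(|G| : F) ≠ 0` and a subset `H ⊆ G` with
`|H| ≥ (1 - η) |G|` on which `(trace, det)` takes at most `M` values,
`|G| * (1 - 60 η) ≤ 120 M`  (`card_mul_le` for `F` algebraically closed, `card_mul_le_field` for any
field, `card_mul_le_zmod` for `F = ZMod ℓ`, `ℓ ∤ |G|`).  No semisimplicity hypothesis is needed here.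
-/
import Mathlib
import Fermat.Agent.DS.Grp.Klein
import Fermat.Agent.DS.Grp.AbelianFibre
set_option autoImplicit false
set_option linter.unusedSectionVars false

open Matrix OnePoint MulAction
open scoped MatrixGroups

namespace Fermat.Agent.DS.Grp.PrimeTo

open Fermat.Agent.DS.Grp.AbelianFibre (trDet)

variable {K : Type*} [Field K] [DecidableEq K]

/-- **Prop. 7.2, prime-to-characteristic case, over an algebraically closed field**: a finite subgroup
`G` of `GL(2, K)` of order invertible in `K` with a subset `H`, `|H| ≥ (1 - η) |G|`, on which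
`(trace, det)` takes at most `M` values, satisfies `|G| (1 - 60 η) ≤ 120 M`. -/
theorem card_mul_le [IsAlgClosed K] (G : Subgroup (GL (Fin 2) K)) [Finite G]
    (hG : (Nat.card G : K) ≠ 0) (H : Finset (GL (Fin 2) K)) (hHG : ∀ h ∈ H, h ∈ G) (η : ℝ) (M : ℕ)
    (hH : (1 - η) * (Nat.card G : ℝ) ≤ (H.card : ℝ))
    (hM : (H.image trDet).card ≤ M) :
    (Nat.card G : ℝ) * (1 - 60 * η) ≤ 120 * (M : ℝ) := by
  classical
  obtain ⟨A, hAcomm, hA60, hA0⟩ := Klein.exists_abelian_index_le G hG
  have : Fintype G := Fintype.ofFinite G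
  -- everything inside the finite type `G`
  set HG : Finset G := H.subtype (· ∈ G) with hHGdef
  have hHGcard : HG.card = H.card := by
    rw [hHGdef, Finset.card_subtype, Finset.filter_true_of_mem hHG]
  set AF : Finset G := Finset.univ.filter (· ∈ A) with hAF
  have hAFcard : AF.card = Nat.card A := by
    rw [hAF, Nat.card_eq_fintype_card, Fintype.card_subtype]
  set HA : Finset G := HG.filter (· ∈ A) with hHA
  have hN : Nat.card G = Fintype.card G := Nat.card_eq_fintype_card
  -- `|A| ≤ |H ∩ A| + (|G| - |H|)`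
  have hcover : AF ⊆ HA ∪ (Finset.univ \ HG) := by
    intro g hg
    have hgA : g ∈ A := (Finset.mem_filter.mp hg).2
    by_cases hgH : g ∈ HG
    · exact Finset.mem_union_left _ (Finset.mem_filter.mpr ⟨hgH, hgA⟩)
    · exact Finset.mem_union_right _ (Finset.mem_sdiff.mpr ⟨Finset.mem_univ _, hgH⟩)
  have hc1 : AF.card ≤ HA.card + (Fintype.card G - HG.card) := by
    calc AF.card ≤ (HA ∪ (Finset.univ \ HG)).card := Finset.card_le_card hcover
      _ ≤ HA.card + (Finset.univ \ HG).card := Finset.card_union_le _ _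
      _ = HA.card + (Fintype.card G - HG.card) := by
          rw [Finset.card_sdiff_of_subset (Finset.subset_univ _), Finset.card_univ]
  have hHGle : HG.card ≤ Fintype.card G := Finset.card_le_univ _
  -- `|H ∩ A| ≤ 2 M`
  set HA' : Finset (GL (Fin 2) K) := HA.image Subtype.val with hHA'
  have hHA'card : HA'.card = HA.card := Finset.card_image_of_injective _ Subtype.val_injective
  have hpow : ∀ a ∈ HA', a ^ Nat.card G = 1 := by
    intro a ha
    obtain ⟨g, _, rfl⟩ := Finset.mem_image.mp ha
    exact Klein.coe_pow_card G g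
  have hcomm : ∀ a ∈ HA', ∀ b ∈ HA', a * b = b * a := by
    intro a ha b hb
    obtain ⟨g, hg, rfl⟩ := Finset.mem_image.mp ha
    obtain ⟨g', hg', rfl⟩ := Finset.mem_image.mp hb
    have := hAcomm g (Finset.mem_filter.mp hg).2 g' (Finset.mem_filter.mp hg').2
    exact congrArg Subtype.val this
  have h2 := AbelianFibre.card_le_two_mul_card_image HA' hG hpow hcomm
  have hsub : HA'.image trDet ⊆ H.image trDet := by
    apply Finset.image_subset_image
    intro a ha
    obtain ⟨g, hg, rfl⟩ := Finset.mem_image.mp ha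
    have := (Finset.mem_filter.mp hg).1
    rw [hHGdef, Finset.mem_subtype] at this
    exact this
  have h2M : HA.card ≤ 2 * M := by
    rw [← hHA'card]
    calc HA'.card ≤ 2 * (HA'.image trDet).card := h2
      _ ≤ 2 * (H.image trDet).card := Nat.mul_le_mul_left 2 (Finset.card_le_card hsub)
      _ ≤ 2 * M := Nat.mul_le_mul_left 2 hM
  -- assemble in `ℝ`
  have hidx : Nat.card A * A.index = Nat.card G := Subgroup.card_mul_index A
  have hN60 : Nat.card G ≤ 60 * Nat.card A := by
    rw [← hidx, mul_comm]
    exact Nat.mul_le_mul_right _ hA60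
  have hAle : (Nat.card A : ℝ) ≤ 2 * M + η * Nat.card G := by
    have h1 : (Nat.card A : ℝ) ≤ (HA.card : ℝ) + ((Fintype.card G : ℝ) - (HG.card : ℝ)) := by
      rw [← hAFcard]
      have := hc1
      have h' : ((Fintype.card G - HG.card : ℕ) : ℝ) = (Fintype.card G : ℝ) - (HG.card : ℝ) :=
        Nat.cast_sub hHGle
      rw [← h']
      exact_mod_cast this
    have h3 : (HA.card : ℝ) ≤ 2 * M := by exact_mod_cast h2M
    rw [hHGcard, ← hN] at h1
    linarith
  have hN60' : (Nat.card G : ℝ) ≤ 60 * Nat.card A := by exact_mod_cast hN60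
  nlinarith


section Field

variable {F : Type*} [Field F] [DecidableEq F]

/-- the embedding `GL(2, F) → GL(2, F̄)`. -/
noncomputable def toAlgClosure : GL (Fin 2) F →* GL (Fin 2) (AlgebraicClosure F) :=
  Matrix.GeneralLinearGroup.map (algebraMap F (AlgebraicClosure F))

theorem toAlgClosure_injective : Function.Injective (toAlgClosure (F := F)) := by
  intro g h hgh
  apply Units.ext
  ext i j
  have := congrArg (fun m : GL (Fin 2) (AlgebraicClosure F) => m i j) hgh
  simp only [toAlgClosure, Matrix.GeneralLinearGroup.map_apply] at this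
  exact (algebraMap F (AlgebraicClosure F)).injective this

theorem trDet_toAlgClosure (g : GL (Fin 2) F) :
    trDet (toAlgClosure g) =
      (algebraMap F (AlgebraicClosure F) g.val.trace, algebraMap F (AlgebraicClosure F) g.val.det) := by
  have hval : (toAlgClosure g).val = g.val.map (algebraMap F (AlgebraicClosure F)) := rfl
  rw [trDet, hval]
  congr 1
  · rw [Matrix.trace_fin_two, Matrix.trace_fin_two]
    simp [Matrix.map_apply]
  · rw [Matrix.det_fin_two, Matrix.det_fin_two]
    simp [Matrix.map_apply]

/-- **Prop. 7.2, prime-to-characteristic case, over any field.** -/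
theorem card_mul_le_field (G : Subgroup (GL (Fin 2) F)) [Finite G]
    (hG : (Nat.card G : F) ≠ 0) (H : Finset (GL (Fin 2) F)) (hHG : ∀ h ∈ H, h ∈ G) (η : ℝ) (M : ℕ)
    (hH : (1 - η) * (Nat.card G : ℝ) ≤ (H.card : ℝ))
    (hM : (H.image trDet).card ≤ M) :
    (Nat.card G : ℝ) * (1 - 60 * η) ≤ 120 * (M : ℝ) := by
  classical
  set φ := toAlgClosure (F := F) with hφ
  have hinj : Function.Injective φ := toAlgClosure_injective
  set G' := G.map φ with hG'
  have hcard : Nat.card G' = Nat.card G := Subgroup.card_map_of_injective hinj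
  have : Finite G' := by
    apply Nat.finite_of_card_ne_zero
    rw [hcard]
    exact Nat.card_pos.ne'
  have hG'0 : (Nat.card G' : AlgebraicClosure F) ≠ 0 := by
    rw [hcard]
    intro h0
    apply hG
    have : algebraMap F (AlgebraicClosure F) (Nat.card G : F) = 0 := by
      rw [map_natCast]; exact h0
    exact (map_eq_zero _).mp this
  set H' := H.image φ with hH'
  have hH'card : H'.card = H.card := Finset.card_image_of_injective _ hinj
  have hH'G' : ∀ h ∈ H', h ∈ G' := by
    intro h hh
    obtain ⟨g, hg, rfl⟩ := Finset.mem_image.mp hh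
    exact Subgroup.mem_map_of_mem _ (hHG g hg)
  have himg : (H'.image trDet).card ≤ M := by
    have : H'.image trDet = (H.image trDet).image
        (Prod.map (algebraMap F (AlgebraicClosure F)) (algebraMap F (AlgebraicClosure F))) := by
      rw [hH', Finset.image_image, Finset.image_image]
      apply Finset.image_congr
      intro g _
      simp only [Function.comp_apply, hφ, trDet_toAlgClosure]
      rfl
    rw [this]
    exact le_trans Finset.card_image_le hM
  have := card_mul_le G' hG'0 H' hH'G' η M (by rw [hcard, hH'card]; exact hH) himg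
  rw [hcard] at this
  exact this

end Field

/-- **Prop. 7.2, case `ℓ ∤ |G|`, over `ZMod ℓ`.** -/
theorem card_mul_le_zmod (ℓ : ℕ) [Fact ℓ.Prime] (G : Subgroup (GL (Fin 2) (ZMod ℓ)))
    (hG : ¬ ℓ ∣ Nat.card G) (H : Finset (GL (Fin 2) (ZMod ℓ))) (hHG : ∀ h ∈ H, h ∈ G) (η : ℝ)
    (M : ℕ) (hH : (1 - η) * (Nat.card G : ℝ) ≤ (H.card : ℝ))
    (hM : (H.image trDet).card ≤ M) :
    (Nat.card G : ℝ) * (1 - 60 * η) ≤ 120 * (M : ℝ) := by
  have : Finite G := inferInstance
  refine card_mul_le_field G ?_ H hHG η M hH hM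
  rwa [Ne, ZMod.natCast_eq_zero_iff]

end Fermat.Agent.DS.Grp.PrimeTo
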